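import Mathlib
import Fermat.Agent.MUL.S48.W.A.LatticeCoset

/-!
# F4 / GLOB / Compl : a number field inside `PadicAlgCl q` — the prime and the valuation (B1)

`F` a number field, `j : F →+* PadicAlgCl q` a ring homomorphism (for instance the restriction of
`padicEmbedding q ∘ g`, `g ∈ Gal(ℚ̄/ℚ)`, to a subfield `F ⊂ ℚ̄`).

* `primeOf j : HeightOneSpectrum (𝓞 F)` : the prime `{x ∈ 𝓞 F | ‖j x‖ < 1}` of `F` cut out by `j`;
* `norm_lt_one_iff`, `norm_le_one_iff`, `norm_eq_one_iff` : comparison of `‖j x‖` with the adic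
  valuation `(primeOf j).valuation F x`;
* `norm_eq_zpow` : `‖j x‖ = ‖j π‖ ^ n` if `(primeOf j).valuation F x = exp (-n)`, `π` a uniformizer.
-/

set_option autoImplicit false

open NumberField IsDedekindDomain

open scoped NNReal

namespace Fermat.Agent.F4G

variable {q : ℕ} [Fact q.Prime]

/-- Elements of `PadicAlgCl q` which are integral over `ℤ` have norm `≤ 1`. -/
lemma norm_le_one_of_isIntegral {x : PadicAlgCl q} (hx : IsIntegral ℤ x) : ‖x‖ ≤ 1 := by
  set O : ValuationSubring (PadicAlgCl q) :=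
    (Valued.v : Valuation (PadicAlgCl q) ℝ≥0).valuationSubring with hO
  have h1 : IsIntegral O x := hx.tower_top
  obtain ⟨y, hy⟩ := IsIntegrallyClosed.isIntegral_iff.mp h1
  have h2 : (Valued.v : Valuation (PadicAlgCl q) ℝ≥0) x ≤ 1 := by
    rw [← hy]
    exact y.2
  rw [PadicAlgCl.valuation_def] at h2
  exact_mod_cast h2

variable {F : Type*} [Field F] [NumberField F] (j : F →+* PadicAlgCl q)

omit [NumberField F] in
/-- Integers of `F` have norm `≤ 1`. -/
lemma norm_map_integer_le_one (x : 𝓞 F) : ‖j (x : F)‖ ≤ 1 :=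
  norm_le_one_of_isIntegral (map_isIntegral_int j (RingOfIntegers.isIntegral_coe x))

omit [NumberField F] in
lemma coe_add_integer (a b : 𝓞 F) : ((a + b : 𝓞 F) : F) = (a : F) + (b : F) :=
  map_add (algebraMap (𝓞 F) F) a b

omit [NumberField F] in
lemma coe_mul_integer (a b : 𝓞 F) : ((a * b : 𝓞 F) : F) = (a : F) * (b : F) :=
  map_mul (algebraMap (𝓞 F) F) a b

/-- The ideal `{x ∈ 𝓞 F | ‖j x‖ < 1}`. -/
def idealOf : Ideal (𝓞 F) where
  carrier := {x | ‖j (x : F)‖ < 1}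
  add_mem' := by
    intro a b ha hb
    show ‖j ((a + b : 𝓞 F) : F)‖ < 1
    rw [coe_add_integer, map_add]
    exact lt_of_le_of_lt (IsUltrametricDist.norm_add_le_max _ _) (max_lt ha hb)
  zero_mem' := by
    show ‖j ((0 : 𝓞 F) : F)‖ < 1
    simp
  smul_mem' := by
    intro c x hx
    show ‖j ((c * x : 𝓞 F) : F)‖ < 1
    rw [coe_mul_integer, map_mul, norm_mul]
    calc ‖j (c : F)‖ * ‖j (x : F)‖ ≤ 1 * ‖j (x : F)‖ :=
          mul_le_mul_of_nonneg_right (norm_map_integer_le_one j c) (norm_nonneg _)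
      _ = ‖j (x : F)‖ := one_mul _
      _ < 1 := hx

omit [NumberField F] in
lemma mem_idealOf' {x : 𝓞 F} : x ∈ {x : 𝓞 F | ‖j (x : F)‖ < 1} ↔ ‖j (x : F)‖ < 1 := Iff.rfl

lemma mem_idealOf {x : 𝓞 F} : x ∈ idealOf j ↔ ‖j (x : F)‖ < 1 := Iff.rfl

lemma idealOf_isPrime : (idealOf j).IsPrime := by
  refine ⟨?_, ?_⟩
  · intro h
    have : (1 : 𝓞 F) ∈ idealOf j := by rw [h]; trivial
    rw [mem_idealOf] at this
    simp at this
  · intro a b hab
    rw [mem_idealOf, coe_mul_integer, map_mul, norm_mul] at hab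
    by_contra hcon
    simp only [not_or, mem_idealOf, not_lt] at hcon
    have ha : ‖j (a : F)‖ = 1 := le_antisymm (norm_map_integer_le_one j a) hcon.1
    have hb : ‖j (b : F)‖ = 1 := le_antisymm (norm_map_integer_le_one j b) hcon.2
    rw [ha, hb, mul_one] at hab
    exact lt_irrefl _ hab

lemma natCast_mem_idealOf : (q : 𝓞 F) ∈ idealOf j := by
  rw [mem_idealOf]
  have h0 : ((q : 𝓞 F) : F) = (q : F) := map_natCast (algebraMap (𝓞 F) F) q
  have h1 : j ((q : 𝓞 F) : F) = (q : PadicAlgCl q) := by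
    rw [h0, map_natCast]
  rw [h1]
  have h2 : ‖(q : PadicAlgCl q)‖ = ‖(q : ℚ_[q])‖ := by
    rw [← PadicAlgCl.norm_extends]
    congr 1
  rw [h2, Padic.norm_p]
  exact inv_lt_one_of_one_lt₀ (by exact_mod_cast (Fact.out : q.Prime).one_lt)

lemma idealOf_ne_bot : idealOf j ≠ ⊥ := by
  intro h
  have h1 := natCast_mem_idealOf j
  rw [h, Ideal.mem_bot] at h1
  have : (q : 𝓞 F) ≠ 0 := Nat.cast_ne_zero.mpr (Fact.out : q.Prime).ne_zero
  exact this h1

/-- The prime of `F` cut out by `j : F →+* PadicAlgCl q`. -/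
def primeOf : HeightOneSpectrum (𝓞 F) :=
  ⟨idealOf j, idealOf_isPrime j, idealOf_ne_bot j⟩

lemma mem_primeOf {x : 𝓞 F} : x ∈ (primeOf j).asIdeal ↔ ‖j (x : F)‖ < 1 := Iff.rfl

lemma natCast_mem_primeOf : (q : 𝓞 F) ∈ (primeOf j).asIdeal := natCast_mem_idealOf j

/-- An integer outside the prime has norm `1`. -/
lemma norm_eq_one_of_notMem {x : 𝓞 F} (hx : x ∉ (primeOf j).asIdeal) : ‖j (x : F)‖ = 1 :=
  le_antisymm (norm_map_integer_le_one j x) (not_lt.mp fun h => hx ((mem_primeOf j).mpr h))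

/-- **(B1)** `v x ≤ 1 → ‖j x‖ ≤ 1`. -/
lemma norm_le_one_of_valuation_le_one {x : F} (hx : (primeOf j).valuation F x ≤ 1) :
    ‖j x‖ ≤ 1 := by
  obtain ⟨n, ⟨d, hd⟩, hnd⟩ := (primeOf j).exists_primeCompl_mul_eq_of_integer x hx
  have hd' : d ∉ (primeOf j).asIdeal := hd
  have h1 : ‖j (d : F)‖ = 1 := norm_eq_one_of_notMem j hd'
  have h2 : j x * j (d : F) = j (n : F) := by
    rw [← map_mul]
    congr 1
  have h3 : ‖j x‖ = ‖j (n : F)‖ := by
    rw [← h2, norm_mul, h1, mul_one]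
  rw [h3]
  exact norm_map_integer_le_one j n

/-- **(B1)** `v x < 1 → ‖j x‖ < 1`. -/
lemma norm_lt_one_of_valuation_lt_one {x : F} (hx : (primeOf j).valuation F x < 1) :
    ‖j x‖ < 1 := by
  obtain ⟨n, ⟨d, hd⟩, hnd⟩ := (primeOf j).exists_primeCompl_mul_eq_of_integer x hx.le
  have hd' : d ∉ (primeOf j).asIdeal := hd
  have h1 : ‖j (d : F)‖ = 1 := norm_eq_one_of_notMem j hd'
  have h2 : j x * j (d : F) = j (n : F) := by
    rw [← map_mul]
    congr 1
  have h3 : ‖j x‖ = ‖j (n : F)‖ := by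
    rw [← h2, norm_mul, h1, mul_one]
  rw [h3]
  -- `n ∈ v`
  have hvd : (primeOf j).valuation F (d : F) = 1 := by
    refine le_antisymm ((primeOf j).valuation_le_one d) ?_
    by_contra hlt
    exact hd' (((primeOf j).valuation_lt_one_iff_mem (K := F) d).mp (not_le.mp hlt))
  have hvn : (primeOf j).valuation F (n : F) < 1 := by
    have : (n : F) = x * (d : F) := hnd.symm
    rw [this, map_mul, hvd, mul_one]
    exact hx
  exact (mem_primeOf j).mp (((primeOf j).valuation_lt_one_iff_mem (K := F) n).mp hvn)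

/-- **(B1)** `‖j x‖ ≤ 1 ↔ v x ≤ 1`. -/
theorem norm_le_one_iff (x : F) : ‖j x‖ ≤ 1 ↔ (primeOf j).valuation F x ≤ 1 := by
  refine ⟨fun h => ?_, norm_le_one_of_valuation_le_one j⟩
  by_contra hcon
  have hx0 : x ≠ 0 := by
    rintro rfl
    simp at hcon
  have h1 : (primeOf j).valuation F x⁻¹ < 1 := by
    rw [map_inv₀]
    exact inv_lt_one_of_one_lt₀ (not_le.mp hcon)
  have h2 := norm_lt_one_of_valuation_lt_one j h1
  rw [map_inv₀, norm_inv] at h2
  have h3 : 0 < ‖j x‖ := norm_pos_iff.mpr ((map_ne_zero j).mpr hx0)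
  have h4 : 1 < ‖j x‖ := by
    by_contra h5
    have h6 : 1 ≤ ‖j x‖⁻¹ := (one_le_inv₀ h3).mpr (not_lt.mp h5)
    exact absurd h2 (not_lt.mpr h6)
  exact absurd h (not_le.mpr h4)

/-- **(B1)** `‖j x‖ < 1 ↔ v x < 1`. -/
theorem norm_lt_one_iff (x : F) : ‖j x‖ < 1 ↔ (primeOf j).valuation F x < 1 := by
  refine ⟨fun h => ?_, norm_lt_one_of_valuation_lt_one j⟩
  by_contra hcon
  have hx0 : x ≠ 0 := by
    rintro rfl
    simp at hcon
  have h1 : (primeOf j).valuation F x⁻¹ ≤ 1 := by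
    rw [map_inv₀]
    exact inv_le_one_of_one_le₀ (not_lt.mp hcon)
  have h2 := norm_le_one_of_valuation_le_one j h1
  rw [map_inv₀, norm_inv] at h2
  have h3 : 0 < ‖j x‖ := norm_pos_iff.mpr ((map_ne_zero j).mpr hx0)
  have h4 : 1 ≤ ‖j x‖ := (inv_le_one₀ h3).mp h2
  exact absurd h (not_lt.mpr h4)

/-- **(B1)** `‖j x‖ = 1 ↔ v x = 1`. -/
theorem norm_eq_one_iff (x : F) : ‖j x‖ = 1 ↔ (primeOf j).valuation F x = 1 := by
  constructor
  · intro h
    refine le_antisymm ((norm_le_one_iff j x).mp h.le) ?_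
    by_contra hcon
    have := (norm_lt_one_iff j x).mpr (not_le.mp hcon)
    rw [h] at this
    exact lt_irrefl _ this
  · intro h
    refine le_antisymm ((norm_le_one_iff j x).mpr h.le) ?_
    by_contra hcon
    have := (norm_lt_one_iff j x).mp (not_le.mp hcon)
    rw [h] at this
    exact lt_irrefl _ this

end Fermat.Agent.F4G
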